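import Mathlib.AlgebraicGeometry.EllipticCurve.Affine.Point
import Mathlib.RingTheory.Localization.FractionRing
import Mathlib.RingTheory.Norm.Basic

/-!
# The generic point of a Weierstrass curve and its specialisations

The function field of an elliptic curve carries the generic point `gen`. Every point with
transcendental abscissa in an extension field is the image of `gen` under a unique homomorphism.
The involution `conjField` fixes exactly the rational functions in the abscissa.
-/

set_option autoImplicit false

open Polynomial
open scoped WeierstrassCurve.Affine Polynomial.Bivariate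
open WeierstrassCurve

namespace Fermat.Agent.EC.FrobTrace

variable {k : Type*} [Field k] (W : WeierstrassCurve.Affine k)

noncomputable instance instDecidableEqFunctionField : DecidableEq W.FunctionField :=
  Classical.decEq _

/-- Polynomials in the abscissa as elements of the coordinate ring. -/
noncomputable abbrev toCoord : k[X] →ₐ[k] W.CoordinateRing :=
  IsScalarTower.toAlgHom k k[X] W.CoordinateRing

/-- Polynomials in the abscissa as rational functions. -/
noncomputable abbrev toFun' : k[X] →ₐ[k] W.FunctionField :=
  (IsScalarTower.toAlgHom k W.CoordinateRing W.FunctionField).comp (toCoord W)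

theorem toCoord_injective : Function.Injective (toCoord W) :=
  FaithfulSMul.algebraMap_injective k[X] W.CoordinateRing

theorem toFun'_injective : Function.Injective (toFun' W) :=
  (IsFractionRing.injective W.CoordinateRing W.FunctionField).comp (toCoord_injective W)

/-- The ordinate in the coordinate ring. -/
noncomputable abbrev rootY : W.CoordinateRing := AdjoinRoot.root W.polynomial

/-- The abscissa of the generic point. -/
noncomputable def genX : W.FunctionField := toFun' W X

/-- The ordinate of the generic point. -/
noncomputable def genY : W.FunctionField :=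
  algebraMap W.CoordinateRing W.FunctionField (rootY W)

theorem eval₂_curvePolynomial {S : Type*} [CommRing S] (f : k[X] →+* S) (r : S) :
    W.polynomial.eval₂ f r = r ^ 2 + f (C W.a₁ * X + C W.a₃) * r -
      f (X ^ 3 + C W.a₂ * X ^ 2 + C W.a₄ * X + C W.a₆) := by
  simp only [WeierstrassCurve.Affine.polynomial, eval₂_sub, eval₂_add, eval₂_mul, eval₂_pow,
    eval₂_C, eval₂_X]

theorem rootY_equation :
    rootY W ^ 2 + toCoord W (C W.a₁ * X + C W.a₃) * rootY W =
      toCoord W (X ^ 3 + C W.a₂ * X ^ 2 + C W.a₄ * X + C W.a₆) := by
  have h := AdjoinRoot.eval₂_root W.polynomial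
  rw [eval₂_curvePolynomial] at h
  change _ - AdjoinRoot.of W.polynomial _ = 0 at h
  exact sub_eq_zero.mp h

theorem gen_equation : (W⁄W.FunctionField).Equation (genX W) (genY W) := by
  rw [Affine.equation_iff]
  have h := congrArg (algebraMap W.CoordinateRing W.FunctionField) (rootY_equation W)
  have e : ∀ p : k[X], algebraMap W.CoordinateRing W.FunctionField (toCoord W p) = toFun' W p :=
    fun _ => rfl
  rw [map_add, map_pow, map_mul, e, e] at h
  simp only [map_add, map_mul, map_pow] at h
  simp only [← Polynomial.algebraMap_eq, AlgHom.commutes] at h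
  rw [genX, genY]
  change genY W ^ 2 + algebraMap k W.FunctionField W.a₁ * _ * _ +
    algebraMap k W.FunctionField W.a₃ * _ = _ + algebraMap k W.FunctionField W.a₂ * _ +
    algebraMap k W.FunctionField W.a₄ * _ + algebraMap k W.FunctionField W.a₆
  rw [genY]
  linear_combination h

instance isElliptic_baseChange {L : Type*} [Field L] [Algebra k L] [W.IsElliptic] :
    (W⁄L).IsElliptic :=
  inferInstanceAs (W.map (algebraMap k L)).IsElliptic

/-- The generic point. -/
noncomputable def gen [W.IsElliptic] : (W⁄W.FunctionField).Point :=
  .some _ _ (Affine.equation_iff_nonsingular.mp (gen_equation W))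

variable {W}
variable {L : Type*} [Field L] [Algebra k L] {x y : L}

theorem evalHom_aux (h : (W⁄L).Equation x y) :
    W.polynomial.eval₂ ((aeval x : k[X] →ₐ[k] L) : k[X] →+* L) y = 0 := by
  rw [Affine.equation_iff] at h
  change y ^ 2 + algebraMap k L W.a₁ * x * y + algebraMap k L W.a₃ * y =
    x ^ 3 + algebraMap k L W.a₂ * x ^ 2 + algebraMap k L W.a₄ * x + algebraMap k L W.a₆ at h
  rw [eval₂_curvePolynomial]
  simp
  linear_combination h

/-- Evaluation of regular functions at a point. -/
noncomputable def evalHom (h : (W⁄L).Equation x y) : W.CoordinateRing →ₐ[k] L :=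
  AdjoinRoot.liftAlgHom W.polynomial (aeval x : k[X] →ₐ[k] L) y (evalHom_aux h)

theorem evalHom_toCoord (h : (W⁄L).Equation x y) (p : k[X]) :
    evalHom h (toCoord W p) = aeval x p :=
  AdjoinRoot.liftAlgHom_of W.polynomial _ _ _ p

theorem evalHom_rootY (h : (W⁄L).Equation x y) : evalHom h (rootY W) = y :=
  AdjoinRoot.liftAlgHom_root W.polynomial _ _ _

variable (W)

theorem conjCoord_aux :
    W.polynomial.eval₂ ((Algebra.ofId k[X] W.CoordinateRing : k[X] →+* W.CoordinateRing))
      (-rootY W - toCoord W (C W.a₁ * X + C W.a₃)) = 0 := by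
  have h := rootY_equation W
  rw [eval₂_curvePolynomial]
  change (-rootY W - toCoord W _) ^ 2 + toCoord W _ * _ - toCoord W _ = 0
  linear_combination h

/-- The involution `Y ↦ -Y - a₁X - a₃` of the coordinate ring. -/
noncomputable def conjCoord : W.CoordinateRing →ₐ[k[X]] W.CoordinateRing :=
  AdjoinRoot.liftAlgHom W.polynomial (Algebra.ofId k[X] W.CoordinateRing) _ (conjCoord_aux W)

theorem conjCoord_rootY :
    conjCoord W (rootY W) = -rootY W - toCoord W (C W.a₁ * X + C W.a₃) :=
  AdjoinRoot.liftAlgHom_root W.polynomial _ _ _

theorem conjCoord_toCoord (p : k[X]) : conjCoord W (toCoord W p) = toCoord W p :=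
  (conjCoord W).commutes p

theorem exists_eq_add_mul_rootY (z : W.CoordinateRing) :
    ∃ p q : k[X], z = toCoord W p + toCoord W q * rootY W := by
  obtain ⟨p, q, rfl⟩ := Affine.CoordinateRing.exists_smul_basis_eq z
  exact ⟨p, q, by rw [Algebra.smul_def, Algebra.smul_def, mul_one]; rfl⟩

theorem eq_zero_of_add_mul_rootY {p q : k[X]} (h : toCoord W p + toCoord W q * rootY W = 0) :
    p = 0 ∧ q = 0 := by
  refine Affine.CoordinateRing.smul_basis_eq_zero (W' := W) ?_
  rw [Algebra.smul_def, Algebra.smul_def, mul_one]
  exact h

theorem mul_conjCoord (z : W.CoordinateRing) :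
    z * conjCoord W z = toCoord W (Algebra.norm k[X] z) := by
  obtain ⟨p, q, rfl⟩ := exists_eq_add_mul_rootY W z
  have e : toCoord W p + toCoord W q * rootY W =
      p • (1 : W.CoordinateRing) + q • Affine.CoordinateRing.mk W Y := by
    rw [Algebra.smul_def, Algebra.smul_def, mul_one]; rfl
  conv_rhs => rw [e, Affine.CoordinateRing.norm_smul_basis]
  rw [map_add (conjCoord W), map_mul (conjCoord W), conjCoord_toCoord, conjCoord_toCoord,
    conjCoord_rootY]
  have h := rootY_equation W
  simp only [map_sub, map_add, map_mul, map_pow] at h ⊢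
  linear_combination -(toCoord W q ^ 2) * h

theorem conjCoord_conjCoord (z : W.CoordinateRing) : conjCoord W (conjCoord W z) = z := by
  obtain ⟨p, q, rfl⟩ := exists_eq_add_mul_rootY W z
  simp only [map_add, map_mul, map_sub, map_neg, conjCoord_toCoord, conjCoord_rootY]
  ring

theorem conjCoord_injective : Function.Injective (conjCoord W) :=
  Function.LeftInverse.injective (conjCoord_conjCoord W)

theorem norm_ne_zero' {z : W.CoordinateRing} (hz : z ≠ 0) : Algebra.norm k[X] z ≠ 0 := by
  intro h
  have := mul_conjCoord W z
  rw [h, map_zero, mul_eq_zero] at this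
  rcases this with h1 | h1
  · exact hz h1
  · exact hz (conjCoord_injective W (by rw [h1, map_zero]))

variable {W}

theorem evalHom_injective (h : (W⁄L).Equation x y) (hx : Transcendental k x) :
    Function.Injective (evalHom h) := by
  refine (injective_iff_map_eq_zero _).mpr fun z hz => ?_
  by_contra hne
  have h1 := congrArg (evalHom h) (mul_conjCoord W z)
  rw [map_mul, hz, zero_mul, evalHom_toCoord] at h1
  exact norm_ne_zero' W hne (transcendental_iff.mp hx _ h1.symm)

/-- The homomorphism carrying the generic point to a point with transcendental abscissa. -/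
noncomputable def pointHom (h : (W⁄L).Equation x y) (hx : Transcendental k x) :
    W.FunctionField →ₐ[k] L :=
  IsFractionRing.liftAlgHom (evalHom_injective h hx)

theorem pointHom_algebraMap (h : (W⁄L).Equation x y) (hx : Transcendental k x)
    (z : W.CoordinateRing) :
    pointHom h hx (algebraMap _ W.FunctionField z) = evalHom h z := by
  simp [pointHom]

theorem pointHom_toFun' (h : (W⁄L).Equation x y) (hx : Transcendental k x) (p : k[X]) :
    pointHom h hx (toFun' W p) = aeval x p :=
  (pointHom_algebraMap h hx _).trans (evalHom_toCoord h p)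

theorem pointHom_genX (h : (W⁄L).Equation x y) (hx : Transcendental k x) :
    pointHom h hx (genX W) = x := by
  rw [genX, pointHom_toFun', aeval_X]

theorem pointHom_genY (h : (W⁄L).Equation x y) (hx : Transcendental k x) :
    pointHom h hx (genY W) = y :=
  (pointHom_algebraMap h hx _).trans (evalHom_rootY h)

theorem map_pointHom_gen [W.IsElliptic] [DecidableEq L] (h : (W⁄L).Nonsingular x y)
    (hx : Transcendental k x) :
    Affine.Point.map (W' := W) (pointHom h.1 hx) (gen W) = .some x y h := by
  rw [gen, Affine.Point.map_some]
  simp [pointHom_genX, pointHom_genY]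

variable (W)

theorem conjField_aux : Function.Injective
    ((IsScalarTower.toAlgHom k[X] W.CoordinateRing W.FunctionField).comp (conjCoord W)) :=
  (IsFractionRing.injective W.CoordinateRing W.FunctionField).comp (conjCoord_injective W)

/-- The involution of the function field over the rational functions in the abscissa. -/
noncomputable def conjField : W.FunctionField →ₐ[k] W.FunctionField :=
  (IsFractionRing.liftAlgHom (conjField_aux W)).restrictScalars k

theorem conjField_algebraMap (z : W.CoordinateRing) :
    conjField W (algebraMap _ W.FunctionField z) = algebraMap _ _ (conjCoord W z) := by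
  simp [conjField]

theorem conjField_toFun' (p : k[X]) : conjField W (toFun' W p) = toFun' W p :=
  (conjField_algebraMap W _).trans (congrArg _ (conjCoord_toCoord W p))

theorem conjField_genX : conjField W (genX W) = genX W := conjField_toFun' W X

theorem conjField_genY :
    conjField W (genY W) = (W⁄W.FunctionField).negY (genX W) (genY W) := by
  rw [genY, conjField_algebraMap, conjCoord_rootY, map_sub, map_neg]
  change _ - toFun' W (C W.a₁ * X + C W.a₃) = -genY W - algebraMap k W.FunctionField W.a₁ * _ -
    algebraMap k W.FunctionField W.a₃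
  simp only [map_add, map_mul, ← Polynomial.algebraMap_eq, AlgHom.commutes, genX, genY]
  ring

theorem linear_ne_zero [W.IsElliptic] (h2 : (2 : k) = 0) : C W.a₁ * X + C W.a₃ ≠ 0 := by
  intro h
  have h1 : W.a₁ = 0 := by simpa using congrArg (fun p : k[X] => p.coeff 1) h
  have h3 : W.a₃ = 0 := by simpa using congrArg (fun p : k[X] => p.coeff 0) h
  refine (WeierstrassCurve.isUnit_Δ (W := W)).ne_zero ?_
  simp only [WeierstrassCurve.Δ, WeierstrassCurve.b₂, WeierstrassCurve.b₄, WeierstrassCurve.b₆,
    WeierstrassCurve.b₈, h1, h3]
  linear_combination (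
    (-8 * W.a₂ ^ 2 * (4 * W.a₂ * W.a₆ - W.a₄ ^ 2) - 32 * W.a₄ ^ 3 - 216 * W.a₆ ^ 2 +
      144 * W.a₂ * W.a₄ * W.a₆)) * h2

theorem eq_toCoord_of_conjCoord_eq [W.IsElliptic] {z : W.CoordinateRing}
    (hz : conjCoord W z = z) : ∃ p : k[X], z = toCoord W p := by
  obtain ⟨p, q, rfl⟩ := exists_eq_add_mul_rootY W z
  rw [map_add (conjCoord W), map_mul (conjCoord W), conjCoord_toCoord, conjCoord_toCoord,
    conjCoord_rootY] at hz
  have h0 : toCoord W (q * (C W.a₁ * X + C W.a₃)) + toCoord W (2 * q) * rootY W = 0 := by
    simp only [map_mul, map_ofNat]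
    linear_combination -hz
  obtain ⟨h1, h2⟩ := eq_zero_of_add_mul_rootY W h0
  refine ⟨p, ?_⟩
  suffices hq : q = 0 by simp [hq]
  rcases mul_eq_zero.mp h2 with h | h
  · refine (mul_eq_zero.mp h1).resolve_right (linear_ne_zero W ?_)
    simpa using congrArg (fun f : k[X] => f.coeff 0) h
  · exact h

theorem exists_eq_div_of_conjField_eq [W.IsElliptic] {z : W.FunctionField}
    (hz : conjField W z = z) : ∃ r d : k[X], d ≠ 0 ∧ z * toFun' W d = toFun' W r := by
  obtain ⟨a, b, hb, rfl⟩ := IsFractionRing.div_surjective W.CoordinateRing z
  have hb0 : b ≠ 0 := nonZeroDivisors.ne_zero hb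
  set d := Algebra.norm k[X] b with hd
  have hbK : algebraMap W.CoordinateRing W.FunctionField b ≠ 0 :=
    (map_ne_zero_iff _ (IsFractionRing.injective _ _)).mpr hb0
  have key : algebraMap W.CoordinateRing W.FunctionField a /
      algebraMap _ W.FunctionField b * toFun' W d =
      algebraMap _ W.FunctionField (a * conjCoord W b) := by
    rw [show toFun' W d = algebraMap _ W.FunctionField (toCoord W d) from rfl,
      hd, ← mul_conjCoord, map_mul, map_mul]
    field_simp
  have hfix : conjCoord W (a * conjCoord W b) = a * conjCoord W b := by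
    apply IsFractionRing.injective W.CoordinateRing W.FunctionField
    rw [← conjField_algebraMap, ← key, map_mul, hz, conjField_toFun']
  obtain ⟨r, hr⟩ := eq_toCoord_of_conjCoord_eq W hfix
  exact ⟨r, d, norm_ne_zero' W hb0, key.trans (congrArg _ hr)⟩

end Fermat.Agent.EC.FrobTrace
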