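import Mathlib.LinearAlgebra.Charpoly.Basic
import Mathlib.LinearAlgebra.Matrix.Charpoly.Coeff
import Mathlib.LinearAlgebra.Trace
import Mathlib.LinearAlgebra.Charpoly.ToMatrix
import Mathlib.LinearAlgebra.Determinant
import Mathlib.RingTheory.Coprime.Lemmas
import Mathlib.Data.Nat.Prime.Int
import Mathlib.Data.Int.Order.Basic
import Mathlib.Tactic.Linarith

/-!
# Two-dimensional endomorphisms killed by a quadratic polynomial
-/

set_option autoImplicit false

open Polynomial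

namespace Fermat.Agent.EC.FrobTrace

section Charpoly

variable {F V : Type*} [Field F] [AddCommGroup V] [Module F V]

theorem charpoly_of_finrank_eq_two (hV : Module.finrank F V = 2) [Module.Finite F V]
    (T : Module.End F V) :
    T.charpoly = X ^ 2 - C (LinearMap.trace F V T) * X + C (LinearMap.det T) := by
  have hd : T.charpoly.natDegree = 2 := T.charpoly_natDegree.trans hV
  have hm := T.charpoly_monic
  let b := Module.finBasisOfFinrankEq F V hV
  have e : T.charpoly = (LinearMap.toMatrix b b T).charpoly := (T.charpoly_toMatrix b).symm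
  rw [e, Matrix.charpoly_fin_two, ← LinearMap.trace_eq_matrix_trace, LinearMap.det_toMatrix]

/-- A quadratic relation determines trace and determinant, scalars excepted. -/
theorem trace_det_of_quadratic (hV : Module.finrank F V = 2) [Module.Finite F V]
    (T : Module.End F V) (a d : F) (hT : ∀ v, T (T v) - a • T v + d • v = 0)
    (hs : ∀ c : F, (∀ v, T v = c • v) → 2 * c = a ∧ c ^ 2 = d) :
    LinearMap.trace F V T = a ∧ LinearMap.det T = d ∧
      T.charpoly = X ^ 2 - C a * X + C d := by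
  suffices h : LinearMap.trace F V T = a ∧ LinearMap.det T = d by
    exact ⟨h.1, h.2, by rw [charpoly_of_finrank_eq_two hV, h.1, h.2]⟩
  by_cases hsc : ∃ c : F, ∀ v, T v = c • v
  · obtain ⟨c, hc⟩ := hsc
    obtain ⟨h1, h2⟩ := hs c hc
    have hT' : T = c • LinearMap.id := LinearMap.ext fun v => by simp [hc]
    rw [hT', map_smul, LinearMap.trace_id, LinearMap.det_smul, LinearMap.det_id, hV]
    exact ⟨by rw [← h1]; simp [mul_comm], by rw [← h2, mul_one]⟩
  · set t := LinearMap.trace F V T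
    set d₀ := LinearMap.det T
    have hch : ∀ v, T (T v) - t • T v + d₀ • v = 0 := fun v => by
      have := congrArg (fun S : Module.End F V => S v) T.aeval_self_charpoly
      simpa [charpoly_of_finrank_eq_two hV, pow_two, Algebra.algebraMap_eq_smul_one] using this
    have key : ∀ v, (t - a) • T v = (d₀ - d) • v := fun v => by
      have h1 := hT v
      have h2 := hch v
      rw [sub_smul, sub_smul]
      linear_combination (norm := module) h1 - h2
    have hta : t = a := by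
      by_contra hne
      refine hsc ⟨(t - a)⁻¹ * (d₀ - d), fun v => ?_⟩
      rw [mul_smul, ← key, ← mul_smul, inv_mul_cancel₀ (sub_ne_zero.mpr hne), one_smul]
    refine ⟨hta, ?_⟩
    obtain ⟨v, hv⟩ : ∃ v : V, v ≠ 0 := by
      by_contra hall
      push Not at hall
      exact hsc ⟨0, fun v => by simp [hall v]⟩
    have := key v
    rw [hta, sub_self, zero_smul, eq_comm, smul_eq_zero, sub_eq_zero] at this
    exact this.resolve_right hv

end Charpoly

/-- If a simple root `m` of `x² - ax + q` modulo `p` acts as `φ` on the points killed by `p`,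
then for every `j` a lift modulo `p ^ (j+1)` acts as `φ` on the points killed by `p ^ (j+1)`. -/
theorem exists_scalar_lift {A : Type*} [AddCommGroup A] (φ : A →+ A) {a d : ℤ} {p : ℕ}
    (hquad : ∀ P, φ (φ P) - a • φ P + d • P = 0) {m : ℤ} (hcop : IsCoprime (2 * m - a) p)
    (hroot : (p : ℤ) ∣ m ^ 2 - a * m + d)
    (hp : ∀ P : A, (p : ℤ) • P = 0 → φ P = m • P) (j : ℕ) :
    ∃ r : ℤ, (p : ℤ) ∣ r - m ∧ (p : ℤ) ^ (j + 1) ∣ r ^ 2 - a * r + d ∧
      ∀ P : A, ((p : ℤ) ^ (j + 1)) • P = 0 → φ P = r • P := by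
  have hlift : ∀ i : ℕ, ∃ r : ℤ, (p : ℤ) ∣ r - m ∧ (p : ℤ) ^ (i + 1) ∣ r ^ 2 - a * r + d := by
    intro i
    induction i with
    | zero => exact ⟨m, by simp, by simpa using hroot⟩
    | succ i ih =>
      obtain ⟨r, hr, c, hc⟩ := ih
      obtain ⟨u, v, huv⟩ := hcop
      obtain ⟨s, hs⟩ := hr
      refine ⟨r - c * u * (p : ℤ) ^ (i + 1), ?_, ?_⟩
      · exact ⟨s - c * u * (p : ℤ) ^ i, by linear_combination hs⟩
      · refine ⟨c * v + c * u * (-(2 * s)) + c ^ 2 * u ^ 2 * (p : ℤ) ^ i, ?_⟩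
        linear_combination hc - c * (p : ℤ) ^ (i + 1) * huv -
          2 * c * u * (p : ℤ) ^ (i + 1) * hs
  obtain ⟨r, hr, c, hc⟩ := hlift j
  refine ⟨r, hr, ⟨c, hc⟩, fun P hP => ?_⟩
  have key : ∀ (i : ℕ) (Q : A), ((p : ℤ) ^ i) • Q = 0 → φ Q = (a - r) • Q → Q = 0 := by
    intro i
    induction i with
    | zero => intro Q hQ _; simpa using hQ
    | succ i ih =>
      intro Q hQ hφ
      refine ih Q ?_ hφ
      have h1 : (p : ℤ) • ((p : ℤ) ^ i • Q) = 0 := by rw [← mul_smul, ← pow_succ', hQ]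
      have h2 := hp _ h1
      rw [map_zsmul, hφ] at h2
      obtain ⟨u, v, huv⟩ := hcop
      obtain ⟨s, hs⟩ := hr
      have h3 : ((2 * m - a) * (p : ℤ) ^ i) • Q = 0 := by
        rw [show (2 * m - a) * (p : ℤ) ^ i =
          (m * (p : ℤ) ^ i - (a - r) * (p : ℤ) ^ i) - s * (p : ℤ) ^ (i + 1) by
            linear_combination (-((p : ℤ) ^ i)) * hs, sub_smul, sub_smul,
          mul_smul, mul_smul, mul_smul, hQ, smul_zero, sub_zero, sub_eq_zero, ← h2,
          smul_comm ((p : ℤ) ^ i)]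
      calc ((p : ℤ) ^ i) • Q
          = (u * ((2 * m - a) * (p : ℤ) ^ i) + v * (p : ℤ) ^ (i + 1)) • Q := by
            congr 1; linear_combination (-((p : ℤ) ^ i)) * huv
        _ = 0 := by rw [add_smul, mul_smul u, mul_smul v, h3, hQ, smul_zero, smul_zero, add_zero]
  refine sub_eq_zero.mp (key (j + 1) _ ?_ ?_)
  · rw [smul_sub, smul_comm, hP, smul_zero, sub_zero, ← map_zsmul, hP, map_zero]
  · have hN : (r ^ 2 - a * r + d) • P = 0 := by rw [hc, mul_comm, mul_smul, hP, smul_zero]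
    have h := hquad P
    rw [map_sub, map_zsmul, smul_sub, ← mul_smul]
    have hN' : (r * r) • P - (a * r) • P + d • P = 0 := by
      rw [← sub_smul, ← add_smul, ← sq]; exact hN
    rw [sub_smul, sub_mul, sub_smul]
    linear_combination (norm := abel) h - hN'

/-- Counting forces a simple root not to act as Frobenius. -/
theorem scalar_eq_of_card_le {A : Type*} [AddCommGroup A] (φ : A →+ A) {a d : ℤ} {p : ℕ}
    (hp : p.Prime) (hquad : ∀ P, φ (φ P) - a • φ P + d • P = 0) (hHasse : a ^ 2 ≤ 4 * d)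
    (hker : ∀ r : ℤ, r ^ 2 - a * r + d ≠ 0 → ∀ s : Finset A, (∀ P ∈ s, φ P = r • P) →
      (s.card : ℤ) ≤ 2 * (r ^ 2 - a * r + d))
    (htor : ∀ j : ℕ, ∃ s : Finset A,
      (∀ P ∈ s, ((p : ℤ) ^ j) • P = 0) ∧ s.card = (p ^ j) ^ 2)
    {m : ℤ} (hroot : (p : ℤ) ∣ m ^ 2 - a * m + d)
    (hm : ∀ P : A, (p : ℤ) • P = 0 → φ P = m • P) : (p : ℤ) ∣ 2 * m - a := by
  by_contra hndvd
  have hcop : IsCoprime (2 * m - a) p :=
    ((Nat.prime_iff_prime_int.mp hp : Prime (p : ℤ)).coprime_iff_not_dvd.mpr hndvd).symm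
  obtain ⟨j, hj⟩ : ∃ j : ℕ, 4 * (a.natAbs + d.natAbs + 1) < p ^ (j + 1) :=
    ⟨_, lt_trans (Nat.lt_two_pow_self.trans_le (Nat.pow_le_pow_left hp.two_le _))
      (Nat.pow_lt_pow_right hp.one_lt (Nat.lt_succ_self _))⟩
  obtain ⟨r₀, hr₀, -, hr₀φ⟩ := exists_scalar_lift φ hquad hcop hroot hm j
  set P : ℤ := (p : ℤ) ^ (j + 1) with hP
  have hPpos : 0 < P := pow_pos (by exact_mod_cast hp.pos) _
  set r := Int.bmod r₀ (p ^ (j + 1)) with hr
  have hdvd : P ∣ r - r₀ := by
    rw [hP, show ((p : ℤ) ^ (j + 1)) = ((p ^ (j + 1) : ℕ) : ℤ) by push_cast; rfl]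
    exact Int.dvd_bmod_sub_self
  have hrm : (p : ℤ) ∣ r - m := by
    have h1 : (p : ℤ) ∣ r - r₀ := (dvd_pow_self _ (Nat.succ_ne_zero j)).trans hdvd
    simpa using h1.add hr₀
  have hne : r ^ 2 - a * r + d ≠ 0 := by
    intro h0
    have h1 : (2 * r - a) ^ 2 = a ^ 2 - 4 * d := by linear_combination 4 * h0
    have h2 : 2 * r - a = 0 := by
      have : (2 * r - a) ^ 2 = 0 := le_antisymm (by rw [h1]; linarith) (sq_nonneg _)
      exact pow_eq_zero_iff two_ne_zero |>.mp this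
    refine hndvd ?_
    have h3 : 2 * m - a = (2 * r - a) - 2 * (r - m) := by ring
    rw [h3, h2, zero_sub, dvd_neg]
    exact hrm.mul_left 2
  obtain ⟨s, hs, hcard⟩ := htor (j + 1)
  have hle := hker r hne s fun Q hQ => by
    obtain ⟨e, he⟩ := hdvd
    have h0 : P • Q = 0 := hs Q hQ
    rw [hr₀φ Q h0, show r = r₀ + e * P by linear_combination he, add_smul, mul_smul, h0,
      smul_zero, add_zero]
  rw [hcard] at hle
  push_cast at hle
  rw [← hP] at hle
  have hb1 : 2 * r ≤ P + 1 ∧ -P - 1 ≤ 2 * r := by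
    have h1 := Int.bmod_le (x := r₀) (m := p ^ (j + 1)) (pow_pos hp.pos _)
    have h2 := Int.le_bmod (x := r₀) (m := p ^ (j + 1)) (pow_pos hp.pos _)
    rw [← hr] at h1 h2
    push_cast at h1 h2
    rw [← hP] at h1 h2
    omega
  have hbig : 4 * ((a.natAbs : ℤ) + d.natAbs + 1) < P := by
    rw [hP]; exact_mod_cast hj
  have hd : d ≤ d.natAbs := Int.le_natAbs
  have hA1 : a ≤ a.natAbs := Int.le_natAbs
  have hA2 : -a ≤ a.natAbs := by rw [← Int.natAbs_neg]; exact Int.le_natAbs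
  have hA0 : 0 ≤ (a.natAbs : ℤ) := Int.natCast_nonneg _
  have hD0 : 0 ≤ (d.natAbs : ℤ) := Int.natCast_nonneg _
  nlinarith [mul_nonneg (by linarith : (0 : ℤ) ≤ P + 1 - 2 * r)
      (by linarith : (0 : ℤ) ≤ P + 1 + 2 * r),
    mul_nonneg (by linarith : (0 : ℤ) ≤ P + 1 - 2 * r) (by linarith : (0 : ℤ) ≤ a.natAbs - a),
    mul_nonneg (by linarith : (0 : ℤ) ≤ P + 1 + 2 * r) (by linarith : (0 : ℤ) ≤ a.natAbs + a),
    mul_nonneg (by linarith : (0 : ℤ) ≤ P + 1) (by linarith : (0 : ℤ) ≤ P - 4 * ((a.natAbs : ℤ) + d.natAbs + 1))]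

end Fermat.Agent.EC.FrobTrace
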